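/-
Crossing numbers: the intersection of a pair of cusps `(u, v)` (given by integer vectors) with the
paths `z → γ z`, as homomorphisms `Γ → ℤ` for subgroups `Γ` of `SL(2, ℤ)`.
-/
import Fermat.Agent.Periods.Transfer
import Mathlib.Algebra.BigOperators.Finprod
import Mathlib.Data.Sign.Basic
import Mathlib.Analysis.Complex.Basic
import Mathlib.Topology.Order.IntermediateValue

namespace Fermat.Agent.LevelRaise.Crossing

open Fermat.Agent.Periods
open scoped MatrixGroups ComplexConjugate

/-- Integer vectors, representing cusps `a/c` (any nonzero multiple gives the same cusp). -/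
abbrev Vec : Type := ℤ × ℤ

/-- Action of an integer matrix on vectors. -/
def vmul (M : IntMat) (u : Vec) : Vec :=
  (M 0 0 * u.1 + M 0 1 * u.2, M 1 0 * u.1 + M 1 1 * u.2)

/-- Determinant of two vectors. -/
def vdet (u v : Vec) : ℤ := u.1 * v.2 - v.1 * u.2

theorem vmul_mul (M M' : IntMat) (u : Vec) : vmul (M * M') u = vmul M (vmul M' u) := by
  ext <;> simp [vmul, Matrix.mul_apply, Fin.sum_univ_two] <;> ring

@[simp] theorem vmul_one (u : Vec) : vmul 1 u = u := by simp [vmul]

theorem vdet_vmul (M : IntMat) (u v : Vec) : vdet (vmul M u) (vmul M v) = M.det * vdet u v := by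
  simp only [vdet, vmul, Matrix.det_fin_two]; ring

theorem vdet_swap (u v : Vec) : vdet v u = -vdet u v := by simp only [vdet]; ring

/-- Denominator of the Moebius action. -/
def mobDen (M : IntMat) (z : ℂ) : ℂ := (M 1 0 : ℂ) * z + (M 1 1 : ℂ)

/-- Moebius action of an integer matrix on `ℂ`. -/
noncomputable def mob (M : IntMat) (z : ℂ) : ℂ := ((M 0 0 : ℂ) * z + (M 0 1 : ℂ)) / mobDen M z

theorem mobDen_ne_zero {M : IntMat} (hM : 0 < M.det) {z : ℂ} (hz : 0 < z.im) :
    mobDen M z ≠ 0 := by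
  intro h
  have h2 := congrArg Complex.im h
  simp [mobDen] at h2
  rcases h2 with h2 | h2
  · have h3 := congrArg Complex.re h
    simp [mobDen, h2] at h3
    rw [Matrix.det_fin_two, h2, h3] at hM
    simp at hM
  · exact hz.ne' h2

theorem mob_im {M : IntMat} (z : ℂ) :
    (mob M z).im = (M.det : ℝ) * z.im / Complex.normSq (mobDen M z) := by
  simp only [mob, Complex.div_im, mobDen, Matrix.det_fin_two]
  simp
  ring

theorem mob_im_pos {M : IntMat} (hM : 0 < M.det) {z : ℂ} (hz : 0 < z.im) : 0 < (mob M z).im := by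
  rw [mob_im]
  exact div_pos (mul_pos (by exact_mod_cast hM) hz) (Complex.normSq_pos.mpr (mobDen_ne_zero hM hz))

@[simp] theorem mob_one (z : ℂ) : mob 1 z = z := by simp [mob, mobDen]

theorem mob_mul {M M' : IntMat} (hM' : 0 < M'.det) {z : ℂ} (hz : 0 < z.im) :
    mob (M * M') z = mob M (mob M' z) := by
  have h := mobDen_ne_zero hM' hz
  simp only [mobDen] at h
  simp only [mob, mobDen, Matrix.mul_apply, Fin.sum_univ_two, Int.cast_add, Int.cast_mul]
  rw [mul_div_assoc' (M 0 0 : ℂ), mul_div_assoc' (M 1 0 : ℂ), div_add' _ _ _ h, div_add' _ _ _ h,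
    div_div_div_cancel_right₀ h]
  congr 1 <;> ring

/-- The quadratic form of the geodesic through the cusps `u` and `v`. -/
noncomputable def form (u v : Vec) (z : ℂ) : ℝ :=
  (vdet u v : ℝ) * (((v.2 : ℂ) * z - v.1) * conj ((u.1 : ℂ) - u.2 * z)).re

theorem form_eq (u v : Vec) (z : ℂ) : form u v z = (vdet u v : ℝ) *
    (-((u.2 * v.2 : ℤ) : ℝ) * (z.re ^ 2 + z.im ^ 2) + ((u.1 * v.2 + v.1 * u.2 : ℤ) : ℝ) * z.re
      - ((u.1 * v.1 : ℤ) : ℝ)) := by
  simp [form]
  ring_nf
  tauto

theorem form_vmul {M : IntMat} (hM : 0 < M.det) (u v : Vec) {z : ℂ} (hz : 0 < z.im) :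
    form (vmul M u) (vmul M v) (mob M z) =
      (M.det : ℝ) ^ 3 / Complex.normSq (mobDen M z) * form u v z := by
  have h := mobDen_ne_zero hM hz
  have h' : (starRingEnd ℂ) (mobDen M z) ≠ 0 := (map_ne_zero _).mpr h
  have e1 : (((vmul M v).2 : ℂ) * mob M z - (vmul M v).1)
      = (M.det : ℂ) * ((v.2 : ℂ) * z - v.1) / mobDen M z := by
    rw [mob, mul_div_assoc', div_sub' h]
    congr 1
    simp only [vmul, mobDen, Matrix.det_fin_two]
    push_cast
    ring
  have e2 : (((vmul M u).1 : ℂ) - (vmul M u).2 * mob M z)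
      = (M.det : ℂ) * ((u.1 : ℂ) - u.2 * z) / mobDen M z := by
    rw [mob, mul_div_assoc', sub_div' h]
    congr 1
    simp only [vmul, mobDen, Matrix.det_fin_two]
    push_cast
    ring
  have e3 : ((M.det : ℂ) * ((v.2 : ℂ) * z - v.1) / mobDen M z) *
      conj ((M.det : ℂ) * ((u.1 : ℂ) - u.2 * z) / mobDen M z)
      = (((M.det : ℝ) ^ 2 / Complex.normSq (mobDen M z) : ℝ) : ℂ) *
        (((v.2 : ℂ) * z - v.1) * conj ((u.1 : ℂ) - u.2 * z)) := by
    rw [Complex.ofReal_div, Complex.normSq_eq_conj_mul_self]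
    simp only [map_div₀, map_mul, map_intCast, Complex.ofReal_pow, Complex.ofReal_intCast]
    generalize (M.det : ℂ) = D
    field_simp
  rw [form, e1, e2, e3, Complex.re_ofReal_mul, vdet_vmul, form]
  push_cast
  ring

theorem form_swap (u v : Vec) (z : ℂ) : form v u z = -form u v z := by
  rw [form_eq, form_eq, vdet_swap]; push_cast; ring

theorem form_smul_left (k : ℤ) (u v : Vec) (z : ℂ) :
    form (k • u) v z = (k : ℝ) ^ 2 * form u v z := by
  rw [form_eq, form_eq]; simp [vdet]; ring

theorem form_smul_right (k : ℤ) (u v : Vec) (z : ℂ) :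
    form u (k • v) z = (k : ℝ) ^ 2 * form u v z := by
  rw [form_eq, form_eq]; simp [vdet]; ring

/-- The side of the oriented geodesic from `u` to `v` on which `z` lies. -/
noncomputable def side (u v : Vec) (z : ℂ) : ℤ := ((SignType.sign (form u v z) : SignType) : ℤ)

theorem side_vmul {M : IntMat} (hM : 0 < M.det) (u v : Vec) {z : ℂ} (hz : 0 < z.im) :
    side (vmul M u) (vmul M v) (mob M z) = side u v z := by
  have hc : (0 : ℝ) < (M.det : ℝ) ^ 3 / Complex.normSq (mobDen M z) :=
    div_pos (pow_pos (by exact_mod_cast hM) 3) (Complex.normSq_pos.mpr (mobDen_ne_zero hM hz))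
  rw [side, form_vmul hM u v hz, sign_mul, sign_pos hc, one_mul, side]

theorem side_swap (u v : Vec) (z : ℂ) : side v u z = -side u v z := by
  rw [side, side, form_swap, Left.sign_neg]; simp

theorem side_smul_left {k : ℤ} (hk : k ≠ 0) (u v : Vec) (z : ℂ) :
    side (k • u) v z = side u v z := by
  rw [side, form_smul_left, sign_mul, sign_pos (by positivity), one_mul, side]

theorem side_smul_right {k : ℤ} (hk : k ≠ 0) (u v : Vec) (z : ℂ) :
    side u (k • v) z = side u v z := by
  rw [side, form_smul_right, sign_mul, sign_pos (by positivity), one_mul, side]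

section Finiteness

theorem mem_im_pos {z w : ℂ} {t : ℝ} (ht0 : 0 ≤ t) (ht1 : t ≤ 1) :
    min z.im w.im ≤ ((1 - t : ℝ) * z + (t : ℝ) * w).im ∧
      |((1 - t : ℝ) * z + (t : ℝ) * w).re| ≤ |z.re| + |w.re| ∧
      |((1 - t : ℝ) * z + (t : ℝ) * w).im| ≤ |z.im| + |w.im| := by
  have key : ∀ a b : ℝ, min a b ≤ (1 - t) * a + t * b ∧ |(1 - t) * a + t * b| ≤ |a| + |b| := by
    intro a b
    refine ⟨?_, ?_⟩
    · nlinarith [min_le_left a b, min_le_right a b]
    · calc |(1 - t) * a + t * b| ≤ |(1 - t) * a| + |t * b| := abs_add_le _ _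
        _ ≤ |a| + |b| := by
          rw [abs_mul, abs_mul, abs_of_nonneg (by linarith : (0:ℝ) ≤ 1 - t), abs_of_nonneg ht0]
          nlinarith [abs_nonneg a, abs_nonneg b]
  simp only [Complex.add_im, Complex.add_re, Complex.mul_im, Complex.mul_re, Complex.ofReal_re,
    Complex.ofReal_im, zero_mul, add_zero, sub_zero]
  exact ⟨(key _ _).1, (key _ _).2, (key _ _).2⟩

/-- If the geodesic of `u`, `v` separates `z` and `w`, its coefficients are bounded. -/
theorem exists_bound (n : ℤ) {z w : ℂ} (hz : 0 < z.im) (hw : 0 < w.im) :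
    ∃ B : ℤ, ∀ u v : Vec, vdet u v = n → n ≠ 0 → side u v z ≠ side u v w →
      |u.1| ≤ B ∧ |u.2| ≤ B ∧ |v.1| ≤ B ∧ |v.2| ≤ B := by
  set X : ℝ := |z.re| + |w.re|
  set Y : ℝ := |z.im| + |w.im|
  set y₀ : ℝ := min z.im w.im
  have hy₀ : 0 < y₀ := lt_min hz hw
  set KA : ℝ := |(n : ℝ)| / (2 * y₀)
  set KB : ℝ := |(n : ℝ)| + 2 * KA * X
  set KC : ℝ := KA * (X ^ 2 + Y ^ 2) + KB * X
  refine ⟨⌈KA + KB + KC + |(n : ℝ)|⌉, fun u v hn hn0 hs => ?_⟩
  -- a zero on the segment
  obtain ⟨ζ, hζy, hζx, hζy', hζ⟩ : ∃ ζ : ℂ, y₀ ≤ ζ.im ∧ |ζ.re| ≤ X ∧ |ζ.im| ≤ Y ∧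
      form u v ζ = 0 := by
    set f : ℝ → ℝ := fun t => form u v ((1 - t : ℝ) * z + (t : ℝ) * w) with hf
    have hcont : ContinuousOn f (Set.uIcc 0 1) := by
      refine Continuous.continuousOn ?_
      simp only [hf, form_eq]
      fun_prop
    have h0 : f 0 = form u v z := by simp [hf]
    have h1 : f 1 = form u v w := by simp [hf]
    have hmem : (0 : ℝ) ∈ Set.uIcc (f 0) (f 1) := by
      rw [h0, h1, Set.mem_uIcc]
      rcases lt_trichotomy (form u v z) 0 with a | a | a <;>
        rcases lt_trichotomy (form u v w) 0 with b | b | b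
      all_goals first
        | (exact Or.inl ⟨by linarith, by linarith⟩)
        | (exact Or.inr ⟨by linarith, by linarith⟩)
        | (exfalso; apply hs; simp [side, a, b, sign_neg, sign_pos])
    obtain ⟨t, ht, hft⟩ := intermediate_value_uIcc hcont hmem
    rw [Set.uIcc_of_le zero_le_one, Set.mem_Icc] at ht
    obtain ⟨m1, m2, m3⟩ := mem_im_pos (z := z) (w := w) ht.1 ht.2
    exact ⟨_, m1, m2, m3, hft⟩
  rw [form_eq, mul_eq_zero] at hζ
  have hn' : ((vdet u v : ℤ) : ℝ) ≠ 0 := by rw [hn]; exact_mod_cast hn0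
  replace hζ := hζ.resolve_left hn'
  set a : ℤ := u.1
  set c : ℤ := u.2
  set b : ℤ := v.1
  set d : ℤ := v.2
  have hdet : (a : ℝ) * d - b * c = n := by exact_mod_cast hn
  push_cast at hζ
  set A : ℝ := -((c : ℝ) * d) with hA
  set Bc : ℝ := (a : ℝ) * d + b * c with hB
  set x := ζ.re
  set y := ζ.im
  have hy : 0 < y := hy₀.trans_le hζy
  have hsq : (2 * A * x + Bc) ^ 2 + (2 * A * y) ^ 2 = (n : ℝ) ^ 2 := by
    rw [← hdet, hA, hB]
    linear_combination (-4 * (c : ℝ) * d) * hζ
  have h1 : |2 * A * y| ≤ |(n : ℝ)| := sq_le_sq.mp (by nlinarith [sq_nonneg (2 * A * x + Bc)])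
  have h2 : |2 * A * x + Bc| ≤ |(n : ℝ)| := sq_le_sq.mp (by nlinarith [sq_nonneg (2 * A * y)])
  have hAb : |A| ≤ KA := by
    rw [le_div_iff₀ (by positivity)]
    rw [abs_mul, abs_mul, abs_two, abs_of_pos hy] at h1
    nlinarith [abs_nonneg A]
  have hBb : |Bc| ≤ KB := by
    have h3 : |Bc| ≤ |2 * A * x + Bc| + |2 * A * x| := by
      have := abs_sub (2 * A * x + Bc) (2 * A * x)
      simpa using this
    have h4 : |2 * A * x| ≤ 2 * KA * X := by
      rw [abs_mul, abs_mul, abs_two]
      gcongr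
    linarith
  have hCb : |(a : ℝ) * b| ≤ KC := by
    rw [show (a : ℝ) * b = A * (x ^ 2 + y ^ 2) + Bc * x by rw [hA, hB]; linear_combination -hζ]
    refine (abs_add_le _ _).trans (add_le_add ?_ ?_)
    · rw [abs_mul, abs_of_nonneg (by positivity : (0 : ℝ) ≤ x ^ 2 + y ^ 2)]
      have hx2 : x ^ 2 ≤ X ^ 2 := by nlinarith [sq_abs x, abs_nonneg x]
      have hy2 : y ^ 2 ≤ Y ^ 2 := by nlinarith [sq_abs y, abs_nonneg y]
      exact mul_le_mul hAb (add_le_add hx2 hy2) (by positivity)
        (le_trans (abs_nonneg _) hAb)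
    · rw [abs_mul]; gcongr
  have hKA : 0 ≤ KA := le_trans (abs_nonneg _) hAb
  have hKB : 0 ≤ KB := le_trans (abs_nonneg _) hBb
  have hKC : 0 ≤ KC := le_trans (abs_nonneg _) hCb
  set K := KA + KB + KC + |(n : ℝ)|
  have le1 : ∀ m : ℤ, |(m : ℝ)| ≤ K → |m| ≤ ⌈K⌉ := fun m hm => by
    have : ((|m| : ℤ) : ℝ) ≤ (⌈K⌉ : ℝ) := by push_cast; exact hm.trans (Int.le_ceil K)
    exact_mod_cast this
  have bcd : |c * d| ≤ ⌈K⌉ := le1 _ (by
    push_cast; rw [← abs_neg]; exact hAb.trans (by simp only [K]; linarith [abs_nonneg (n : ℝ)]))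
  have bab : |a * b| ≤ ⌈K⌉ := le1 _ (by
    push_cast; simp only [K]; linarith [abs_nonneg (n : ℝ)])
  have bad : |a * d| ≤ ⌈K⌉ := le1 _ (by
    push_cast
    have hh : |(a : ℝ) * d * 2| ≤ |Bc| + |(n : ℝ)| := by
      rw [show (a : ℝ) * d * 2 = Bc + n by rw [hB, ← hdet]; ring]; exact abs_add_le _ _
    rw [abs_mul _ (2 : ℝ), abs_two] at hh
    simp only [K]; linarith [abs_nonneg ((a : ℝ) * d)])
  have bbc : |b * c| ≤ ⌈K⌉ := le1 _ (by
    push_cast
    have hh : |(b : ℝ) * c * 2| ≤ |Bc| + |(n : ℝ)| := by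
      rw [show (b : ℝ) * c * 2 = Bc - n by rw [hB, ← hdet]; ring]; exact abs_sub _ _
    rw [abs_mul _ (2 : ℝ), abs_two] at hh
    simp only [K]; linarith [abs_nonneg ((b : ℝ) * c)])
  have hdetZ : a * d - b * c = n := hn
  have le2 : ∀ p r s : ℤ, (r = 0 → s = 0 → p = 0) → |p * r| ≤ ⌈K⌉ → |p * s| ≤ ⌈K⌉ →
      |p| ≤ ⌈K⌉ := by
    intro p r s h0 hr hs
    have h00 : (0 : ℤ) ≤ ⌈K⌉ := le_trans (abs_nonneg _) hr
    rcases eq_or_ne p 0 with rfl | hp
    · simpa using h00
    rcases eq_or_ne r 0 with rfl | hr0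
    · have hs0 : s ≠ 0 := fun h => hp (h0 rfl h)
      rw [abs_mul] at hs
      exact le_trans (le_mul_of_one_le_right (abs_nonneg p) (Int.one_le_abs hs0)) hs
    · rw [abs_mul] at hr
      exact le_trans (le_mul_of_one_le_right (abs_nonneg p) (Int.one_le_abs hr0)) hr
  refine ⟨le2 a b d (fun hb hd => absurd (by simp [← hdetZ, hb, hd]) hn0) bab bad,
    le2 c d b (fun hd hb => absurd (by simp [← hdetZ, hb, hd]) hn0) bcd (by rwa [mul_comm]),
    le2 b a c (fun ha hc => absurd (by simp [← hdetZ, ha, hc]) hn0) (by rwa [mul_comm]) bbc,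
    le2 d c a (fun hc ha => absurd (by simp [← hdetZ, ha, hc]) hn0) (by rwa [mul_comm])
      (by rwa [mul_comm])⟩

end Finiteness

variable (G : Subgroup SL(2, ℤ))

/-- The contribution of the translate `γ (u, v)` to the crossing with a path from `z` to `w`. -/
noncomputable def term (u v : Vec) (z w : ℂ) (γ : G) : ℤ :=
  side (vmul (gammaMat γ) u) (vmul (gammaMat γ) v) w -
    side (vmul (gammaMat γ) u) (vmul (gammaMat γ) v) z

variable {G}

theorem term_support_finite (u v : Vec) {z w : ℂ} (hz : 0 < z.im) (hw : 0 < w.im) :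
    (Function.support (term G u v z w)).Finite := by
  rcases eq_or_ne (vdet u v) 0 with h0 | h0
  · convert Set.finite_empty
    ext γ
    simp [term, side, form, vdet_vmul, h0]
  obtain ⟨B, hB⟩ := exists_bound (vdet u v) hz hw
  let img : G → Vec × Vec := fun γ => (vmul (gammaMat γ) u, vmul (gammaMat γ) v)
  have hinj : Function.Injective img := by
    intro γ δ h
    simp only [img, Prod.mk.injEq, vmul] at h
    obtain ⟨⟨e1, e2⟩, e3, e4⟩ := h
    apply gammaMat_injective
    have key : ∀ x y : ℤ, x * u.1 + y * u.2 = 0 → x * v.1 + y * v.2 = 0 → x = 0 ∧ y = 0 := by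
      intro x y hu hv
      constructor
      · refine (mul_eq_zero.mp (?_ : x * vdet u v = 0)).resolve_right h0
        rw [vdet]; linear_combination v.2 * hu - u.2 * hv
      · refine (mul_eq_zero.mp (?_ : y * vdet u v = 0)).resolve_right h0
        rw [vdet]; linear_combination -v.1 * hu + u.1 * hv
    obtain ⟨k1, k2⟩ := key (gammaMat γ 0 0 - gammaMat δ 0 0) (gammaMat γ 0 1 - gammaMat δ 0 1)
      (by linear_combination e1) (by linear_combination e3)
    obtain ⟨k3, k4⟩ := key (gammaMat γ 1 0 - gammaMat δ 1 0) (gammaMat γ 1 1 - gammaMat δ 1 1)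
      (by linear_combination e2) (by linear_combination e4)
    ext i j
    fin_cases i <;> fin_cases j <;> simp <;> linarith
  refine Set.Finite.subset ((((Set.finite_Icc (-B) B).prod (Set.finite_Icc (-B) B)).prod
    ((Set.finite_Icc (-B) B).prod (Set.finite_Icc (-B) B))).preimage hinj.injOn) ?_
  intro γ hγ
  have hne : side (img γ).1 (img γ).2 z ≠ side (img γ).1 (img γ).2 w := fun he =>
    hγ (by simp only [term]; exact sub_eq_zero.mpr he.symm)
  have hdet : vdet (img γ).1 (img γ).2 = vdet u v := by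
    simp only [img]; rw [vdet_vmul, gammaMat_det, one_mul]
  obtain ⟨b1, b2, b3, b4⟩ := hB _ _ hdet h0 hne
  exact ⟨⟨abs_le.mp b1, abs_le.mp b2⟩, abs_le.mp b3, abs_le.mp b4⟩

variable (G) in
/-- The crossing number of the orbit of `(u, v)` with a path from `z` to `w`. -/
noncomputable def cross (u v : Vec) (z w : ℂ) : ℤ := ∑ᶠ γ : G, term G u v z w γ

theorem cross_self (u v : Vec) (z : ℂ) : cross G u v z z = 0 := by
  simp [cross, term]

theorem cross_add (u v : Vec) {x y z : ℂ} (hx : 0 < x.im) (hy : 0 < y.im) (hz : 0 < z.im) :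
    cross G u v x y + cross G u v y z = cross G u v x z := by
  rw [cross, cross, cross,
    ← finsum_add_distrib (term_support_finite u v hx hy) (term_support_finite u v hy hz)]
  exact finsum_congr fun γ => by simp only [term]; ring

theorem cross_swap (u v : Vec) (z w : ℂ) : cross G v u z w = -cross G u v z w := by
  rw [cross, cross, ← finsum_neg_distrib]
  exact finsum_congr fun γ => by simp only [term, side_swap (vmul (gammaMat γ) u)]; ring

theorem cross_mob (u v : Vec) (g : G) {z w : ℂ} (hz : 0 < z.im) (hw : 0 < w.im) :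
    cross G u v (mob (gammaMat g) z) (mob (gammaMat g) w) = cross G u v z w := by
  have hdet : 0 < (gammaMat g).det := by rw [gammaMat_det]; exact one_pos
  rw [cross, cross, ← finsum_comp_equiv (Equiv.mulLeft g)]
  exact finsum_congr fun γ => by
    simp only [term, Equiv.coe_mulLeft, gammaMat_mul, vmul_mul, side_vmul hdet _ _ hz,
      side_vmul hdet _ _ hw]

theorem cross_vmul (u v : Vec) (h : G) (z w : ℂ) :
    cross G (vmul (gammaMat h) u) (vmul (gammaMat h) v) z w = cross G u v z w := by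
  rw [cross, cross]
  conv_rhs => rw [← finsum_comp_equiv (Equiv.mulRight h)]
  exact finsum_congr fun γ => by simp only [term, Equiv.coe_mulRight, gammaMat_mul, vmul_mul]

theorem cross_smul_left {k : ℤ} (hk : k ≠ 0) (u v : Vec) (z w : ℂ) :
    cross G (k • u) v z w = cross G u v z w := by
  refine finsum_congr fun γ => ?_
  have : vmul (gammaMat γ) (k • u) = k • vmul (gammaMat γ) u := by
    ext <;> simp [vmul] <;> ring
  simp only [term, this, side_smul_left hk]

theorem cross_smul_right {k : ℤ} (hk : k ≠ 0) (u v : Vec) (z w : ℂ) :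
    cross G u (k • v) z w = cross G u v z w := by
  rw [← neg_inj, ← cross_swap, ← cross_swap, cross_smul_left hk]

variable (G) in
/-- The crossing homomorphism of the pair of cusps `(u, v)`, base point `i`. -/
noncomputable def crossing (u v : Vec) : Additive G →+ ℤ :=
  AddMonoidHom.mk' (fun g => cross G u v Complex.I (mob (gammaMat (Additive.toMul g)) Complex.I))
    fun a b => by
      set g := Additive.toMul a
      set h := Additive.toMul b
      have hI : (0 : ℝ) < Complex.I.im := by simp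
      have hd : ∀ x : G, 0 < (gammaMat x).det := fun x => by rw [gammaMat_det]; exact one_pos
      show cross G u v Complex.I (mob (gammaMat (g * h)) Complex.I) = _
      rw [gammaMat_mul, mob_mul (hd h) hI,
        ← cross_mob u v g (z := Complex.I) (w := mob (gammaMat h) Complex.I) hI
          (mob_im_pos (hd h) hI),
        cross_add u v hI (mob_im_pos (hd g) hI) (mob_im_pos (hd g) (mob_im_pos (hd h) hI))]

/-- Independence of the base point. -/
theorem crossing_apply (u v : Vec) (g : G) {z : ℂ} (hz : 0 < z.im) :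
    crossing G u v (Additive.ofMul g) = cross G u v z (mob (gammaMat g) z) := by
  have hI : (0 : ℝ) < Complex.I.im := by simp
  have hd : 0 < (gammaMat g).det := by rw [gammaMat_det]; exact one_pos
  show cross G u v Complex.I (mob (gammaMat g) Complex.I) = _
  rw [← cross_add u v hz hI (mob_im_pos hd hz),
    ← cross_add u v hI (mob_im_pos hd hI) (mob_im_pos hd hz), cross_mob u v g hI hz]
  have := cross_add (G := G) u v hz hI hz
  rw [cross_self] at this
  linear_combination -this

theorem crossing_swap (u v : Vec) : crossing G v u = -crossing G u v :=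
  AddMonoidHom.ext fun _ => cross_swap u v _ _

theorem crossing_vmul (u v : Vec) (h : G) :
    crossing G (vmul (gammaMat h) u) (vmul (gammaMat h) v) = crossing G u v :=
  AddMonoidHom.ext fun _ => cross_vmul u v h _ _

theorem crossing_smul_left {k : ℤ} (hk : k ≠ 0) (u v : Vec) :
    crossing G (k • u) v = crossing G u v :=
  AddMonoidHom.ext fun _ => cross_smul_left hk u v _ _

theorem crossing_smul_right {k : ℤ} (hk : k ≠ 0) (u v : Vec) :
    crossing G u (k • v) = crossing G u v :=
  AddMonoidHom.ext fun _ => cross_smul_right hk u v _ _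

end Fermat.Agent.LevelRaise.Crossing
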