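/-
Transfers of crossing homomorphisms.
-/
import Fermat.Agent.LevelRaise.Crossing.Defs
import Fermat.Agent.LevelRaise.Degeneracy.Transfer

namespace Fermat.Agent.LevelRaise.Crossing

open Fermat.Agent.Periods Fermat.Agent.LevelRaise.Degeneracy
open scoped MatrixGroups

variable {Δ Γ : Subgroup SL(2, ℤ)} {ι κ : Type*} [Fintype ι] [Fintype κ]

theorem mob_smul_one {k : ℤ} (hk : k ≠ 0) (z : ℂ) : mob (k • (1 : IntMat)) z = z := by
  simp [mob, mobDen, hk]

theorem side_smul_both {k : ℤ} (hk : k ≠ 0) (u v : Vec) (z : ℂ) :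
    side (k • u) (k • v) z = side u v z := by
  rw [side_smul_left hk, side_smul_right hk]

theorem vmul_smul_one (k : ℤ) (u : Vec) : vmul (k • (1 : IntMat)) u = k • u := by
  ext <;> simp [vmul]

theorem side_mob {M : IntMat} (hM : 0 < M.det) (u v : Vec) {z : ℂ} (hz : 0 < z.im) :
    side u v (mob M z) = side (vmul M.adjugate u) (vmul M.adjugate v) z := by
  have hA : 0 < M.adjugate.det := by rw [Matrix.det_adjugate]; simpa using hM
  rw [← side_vmul hA u v (z := mob M z) (mob_im_pos hM hz), ← mob_mul hM hz,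
    Matrix.adjugate_mul, mob_smul_one hM.ne']

/-- The transfer of a crossing homomorphism is a sum of crossing homomorphisms, as soon as the
adjugate family sweeps the cosets of another one. -/
theorem transfer_crossing {M : ι → IntMat} (hM : IsFamily Δ Γ M) (hdet : ∀ i, 0 < (M i).det)
    (M' : κ → IntMat) (F : ι × Δ → κ × Γ) (hF : Function.Bijective F)
    (hFeq : ∀ x, (M x.1).adjugate * gammaMat x.2 = gammaMat (F x).2 * M' (F x).1) (u v : Vec) :
    hM.transfer ℤ (crossing Δ u v) = ∑ j, crossing Γ (vmul (M' j) u) (vmul (M' j) v) := by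
  refine AddMonoidHom.ext fun x => ?_
  obtain ⟨γ, rfl⟩ := Additive.ofMul.surjective x
  have hI : (0 : ℝ) < Complex.I.im := by simp
  set w : ℂ := mob (gammaMat γ) Complex.I with hw
  have hγ : 0 < (gammaMat γ).det := by rw [gammaMat_det]; exact one_pos
  have hwim : 0 < w.im := mob_im_pos hγ hI
  have hg : ∀ g : Δ, 0 < (gammaMat g).det := fun g => by rw [gammaMat_det]; exact one_pos
  set σ := hM.perm γ
  -- change the base points
  have e1 : ∀ i, crossing Δ u v (Additive.ofMul (hM.elt γ i)) =
      cross Δ u v (mob (M (σ i)) Complex.I) (mob (M i) w) := by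
    intro i
    rw [crossing_apply u v _ (mob_im_pos (hdet (σ i)) hI), ← mob_mul (hdet (σ i)) hI,
      ← hM.step γ i, hw, mob_mul hγ hI]
  have e2 : ∀ i, cross Δ u v (mob (M (σ i)) Complex.I) (mob (M i) w) =
      cross Δ u v Complex.I (mob (M i) w) - cross Δ u v Complex.I (mob (M (σ i)) Complex.I) := by
    intro i
    rw [← cross_add u v hI (mob_im_pos (hdet (σ i)) hI) (mob_im_pos (hdet i) hwim)]
    abel
  have e3 : ∀ i, cross Δ u v (mob (M i) Complex.I) (mob (M i) w) =
      cross Δ u v Complex.I (mob (M i) w) - cross Δ u v Complex.I (mob (M i) Complex.I) := by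
    intro i
    rw [← cross_add u v hI (mob_im_pos (hdet i) hI) (mob_im_pos (hdet i) hwim)]
    abel
  rw [hM.transfer_apply _ γ (hM.step γ), AddMonoidHom.finsetSum_apply]
  have e4 : ∑ i, crossing Δ u v (Additive.ofMul (hM.elt γ i)) =
      ∑ i, cross Δ u v (mob (M i) Complex.I) (mob (M i) w) := by
    simp only [e1, e2, e3, Finset.sum_sub_distrib]
    rw [Equiv.sum_comp σ (fun i => cross Δ u v Complex.I (mob (M i) Complex.I))]
  rw [e4]
  -- the term of a matrix
  let T : IntMat → ℤ := fun X => side (vmul X u) (vmul X v) w - side (vmul X u) (vmul X v) Complex.I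
  have hl : ∀ i (g : Δ), term Δ u v (mob (M i) Complex.I) (mob (M i) w) g =
      T ((M i).adjugate * gammaMat g) := by
    intro i g
    simp only [term, T, side_mob (hdet i) _ _ hI, side_mob (hdet i) _ _ hwim, vmul_mul]
  have hr : ∀ j (h : Γ), term Γ (vmul (M' j) u) (vmul (M' j) v) Complex.I w h =
      T (gammaMat h * M' j) := by
    intro j h
    simp only [term, T, vmul_mul]
  let fl : ι × Δ → ℤ := fun x => term Δ u v (mob (M x.1) Complex.I) (mob (M x.1) w) x.2
  let fr : κ × Γ → ℤ := fun y => term Γ (vmul (M' y.1) u) (vmul (M' y.1) v) Complex.I w y.2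
  have finl : (Function.support fl).Finite := by
    refine ((Set.finite_univ (α := ι)).prod
      (Set.finite_iUnion fun i => term_support_finite (G := Δ) u v
        (mob_im_pos (hdet i) hI) (mob_im_pos (hdet i) hwim))).subset ?_
    intro x hx
    exact ⟨Set.mem_univ _, Set.mem_iUnion.2 ⟨x.1, hx⟩⟩
  have finr : (Function.support fr).Finite := by
    refine ((Set.finite_univ (α := κ)).prod
      (Set.finite_iUnion fun j => term_support_finite (G := Γ) (vmul (M' j) u) (vmul (M' j) v)
        hI hwim)).subset ?_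
    intro x hx
    exact ⟨Set.mem_univ _, Set.mem_iUnion.2 ⟨x.1, hx⟩⟩
  have hL : ∑ i, cross Δ u v (mob (M i) Complex.I) (mob (M i) w) = ∑ᶠ x, fl x := by
    rw [finsum_curry _ finl, finsum_eq_sum_of_fintype]
    rfl
  have hR : ∑ j, crossing Γ (vmul (M' j) u) (vmul (M' j) v) (Additive.ofMul γ) = ∑ᶠ y, fr y := by
    rw [finsum_curry _ finr, finsum_eq_sum_of_fintype]
    exact Finset.sum_congr rfl fun j _ => crossing_apply _ _ γ hI
  rw [hL, hR]
  refine finsum_eq_of_bijective F hF fun x => ?_
  simp only [fl, fr, hl, hr, hFeq]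

end Fermat.Agent.LevelRaise.Crossing
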