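import Fermat.Agent.LevelRaise.Crossing.Triangle
import Mathlib.Analysis.Complex.UpperHalfPlane.MoebiusAction
import Mathlib.LinearAlgebra.Matrix.SpecialLinearGroup

/-!
# Sides of geodesics between cusps

`side r t z` tells on which side of the geodesic from the cusp `r` to the cusp `t` the point `z`
lies; we prove its equivariance, scaling invariance and the finiteness of the translates
separating two given points.
-/

set_option autoImplicit false

noncomputable section

open UpperHalfPlane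
open scoped MatrixGroups ComplexConjugate

namespace Fermat.Agent.LevelRaise

/-- A representative of a cusp. -/
abbrev Vec : Type := Fin 2 → ℤ

/-- `v₁ z - v₀`, vanishing at the cusp `v`. -/
def lineForm (v : Vec) (z : ℍ) : ℂ := (v 1 : ℂ) * (z : ℂ) - (v 0 : ℂ)

/-- The determinant of two cusp representatives. -/
def vecDet (r t : Vec) : ℤ := r 0 * t 1 - r 1 * t 0

/-- The side of the geodesic from `r` to `t` on which `z` lies. -/
def side (r t : Vec) (z : ℍ) : ℤ :=
  (SignType.sign (((r 0 * t 1 - r 1 * t 0 : ℤ) : ℝ) *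
    (conj (lineForm r z) * lineForm t z).re) : ℤ)

/-- The signed crossing number of the geodesic from `r` to `t` with a path from `z` to `w`. -/
def cross (r t : Vec) (z w : ℍ) : ℤ := side r t w - side r t z

/-- The action of `SL(2, ℤ)` on cusp representatives. -/
def slVec (g : SL(2, ℤ)) (v : Vec) : Vec := Matrix.mulVec (g : Matrix (Fin 2) (Fin 2) ℤ) v

theorem side_def (r t : Vec) (z : ℍ) :
    side r t z = (SignType.sign ((vecDet r t : ℝ) *
      (conj (lineForm r z) * lineForm t z).re) : ℤ) := rfl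

theorem slVec_zero_apply (g : SL(2, ℤ)) (v : Vec) :
    slVec g v 0 = g 0 0 * v 0 + g 0 1 * v 1 := by
  simp [slVec, Matrix.mulVec, dotProduct, Fin.sum_univ_two]

theorem slVec_one_apply (g : SL(2, ℤ)) (v : Vec) :
    slVec g v 1 = g 1 0 * v 0 + g 1 1 * v 1 := by
  simp [slVec, Matrix.mulVec, dotProduct, Fin.sum_univ_two]

theorem slVec_mul_apply (g h : SL(2, ℤ)) (v : Vec) : slVec (g * h) v = slVec g (slVec h v) := by
  simp [slVec, Matrix.mulVec_mulVec]

theorem slVec_one (v : Vec) : slVec 1 v = v := by simp [slVec]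

theorem slVec_smul (g : SL(2, ℤ)) (c : ℤ) (v : Vec) : slVec g (c • v) = c • slVec g v :=
  Matrix.mulVec_smul _ c v

theorem slVec_neg (g : SL(2, ℤ)) (v : Vec) : slVec (-g) v = -slVec g v := by
  simp [slVec, Matrix.neg_mulVec]

theorem vecDet_slVec (g : SL(2, ℤ)) (r t : Vec) : vecDet (slVec g r) (slVec g t) = vecDet r t := by
  have h := g.2
  rw [Matrix.det_fin_two] at h
  simp only [vecDet, slVec_zero_apply, slVec_one_apply]
  linear_combination (r 0 * t 1 - r 1 * t 0) * h

theorem slVec_injective (g : SL(2, ℤ)) : Function.Injective (slVec g) := by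
  intro u v h
  have := congrArg (slVec g⁻¹) h
  rwa [← slVec_mul_apply, ← slVec_mul_apply, inv_mul_cancel, slVec_one, slVec_one] at this

theorem slVec_eq_zero_iff (g : SL(2, ℤ)) (v : Vec) : slVec g v = 0 ↔ v = 0 := by
  constructor
  · intro h
    exact slVec_injective g (h.trans (by simp [slVec]))
  · rintro rfl; simp [slVec]

theorem lineForm_slVec_smul (g : SL(2, ℤ)) (v : Vec) (z : ℍ) :
    lineForm (slVec g v) (g • z) * ((g 1 0 : ℂ) * z + g 1 1) = lineForm v z := by
  have hd : ((g 1 0 : ℂ) * z + g 1 1) ≠ 0 := by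
    have := UpperHalfPlane.denom_ne_zero
      (Matrix.SpecialLinearGroup.toGL (Matrix.SpecialLinearGroup.map (Int.castRingHom ℝ) g)) z
    simpa [UpperHalfPlane.denom] using this
  have hdet : ((g 0 0 : ℂ) * g 1 1 - g 0 1 * g 1 0) = 1 := by
    have h := g.2
    rw [Matrix.det_fin_two] at h
    exact_mod_cast h
  simp only [lineForm, slVec_zero_apply, slVec_one_apply,
    UpperHalfPlane.coe_specialLinearGroup_apply, eq_intCast, Complex.ofReal_intCast,
    Int.cast_add, Int.cast_mul]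
  field_simp
  linear_combination ((v 1 : ℂ) * (z : ℂ) - (v 0 : ℂ)) * hdet

theorem side_equivariant (g : SL(2, ℤ)) (r t : Vec) (z : ℍ) :
    side (slVec g r) (slVec g t) (g • z) = side r t z := by
  set j : ℂ := (g 1 0 : ℂ) * z + g 1 1 with hjdef
  have hj : j ≠ 0 := by
    have := UpperHalfPlane.denom_ne_zero
      (Matrix.SpecialLinearGroup.toGL (Matrix.SpecialLinearGroup.map (Int.castRingHom ℝ) g)) z
    simpa [UpperHalfPlane.denom, hjdef] using this
  rw [side_def, side_def, vecDet_slVec, ← lineForm_slVec_smul g r z, ← lineForm_slVec_smul g t z,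
    show conj (lineForm (slVec g r) (g • z) * j) * (lineForm (slVec g t) (g • z) * j) =
      ((Complex.normSq j : ℝ) : ℂ) * (conj (lineForm (slVec g r) (g • z)) *
        lineForm (slVec g t) (g • z)) by
      rw [map_mul, Complex.normSq_eq_conj_mul_self]; ring,
    Complex.re_ofReal_mul, mul_left_comm, sign_mul (Complex.normSq j : ℝ),
    sign_pos (Complex.normSq_pos.2 hj), one_mul]

theorem side_swap (r t : Vec) (z : ℍ) : side t r z = -side r t z := by
  rw [side_def, side_def,
    show ((vecDet t r : ℤ) : ℝ) * (conj (lineForm t z) * lineForm r z).re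
        = -(((vecDet r t : ℤ) : ℝ) * (conj (lineForm r z) * lineForm t z).re) by
      simp [vecDet]; ring, Left.sign_neg]
  cases SignType.sign (((vecDet r t : ℤ) : ℝ) * (conj (lineForm r z) * lineForm t z).re) <;> decide

theorem side_zsmul_left {c : ℤ} (hc : c ≠ 0) (r t : Vec) (z : ℍ) :
    side (c • r) t z = side r t z := by
  have hL : lineForm (c • r) z = ((c : ℝ) : ℂ) * lineForm r z := by simp [lineForm]; ring
  have hD : vecDet (c • r) t = c * vecDet r t := by simp [vecDet]; ring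
  rw [side_def, side_def, hL, hD,
    show conj (((c : ℝ) : ℂ) * lineForm r z) * lineForm t z
      = ((c : ℝ) : ℂ) * (conj (lineForm r z) * lineForm t z) by
      rw [map_mul, Complex.conj_ofReal, mul_assoc],
    Complex.re_ofReal_mul, Int.cast_mul, show (c : ℝ) * (vecDet r t : ℝ) * ((c : ℝ) *
        (conj (lineForm r z) * lineForm t z).re)
      = ((c : ℝ) * c) * ((vecDet r t : ℝ) * (conj (lineForm r z) * lineForm t z).re) by ring,
    sign_mul ((c : ℝ) * c), sign_pos (mul_self_pos.2 (by exact_mod_cast hc)), one_mul]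

theorem side_zsmul_right {c : ℤ} (hc : c ≠ 0) (r t : Vec) (z : ℍ) :
    side r (c • t) z = side r t z := by
  rw [side_swap, side_zsmul_left hc, ← side_swap]

theorem side_eq_zero_of_vecDet {r t : Vec} (h : vecDet r t = 0) (z : ℍ) : side r t z = 0 := by
  rw [side_def, h]; simp

theorem lineForm_ne_zero {v : Vec} (hv : v ≠ 0) (z : ℍ) : lineForm v z ≠ 0 := by
  intro h
  have him : (v 1 : ℝ) * z.im = 0 := by
    have := congrArg Complex.im h
    simpa [lineForm] using this
  have h1 : v 1 = 0 := by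
    rcases mul_eq_zero.mp him with h1 | h1
    · exact_mod_cast h1
    · exact absurd h1 z.im_ne_zero
  have h0 : v 0 = 0 := by
    have := congrArg Complex.re h
    simp [lineForm, h1] at this
    exact_mod_cast this
  exact hv (funext fun i => by fin_cases i <;> simp [h0, h1])

theorem normSq_lineForm (v : Vec) (z : ℍ) :
    Complex.normSq (lineForm v z) =
      ((v 1 : ℝ) * z.re - v 0) ^ 2 + ((v 1 : ℝ) * z.im) ^ 2 := by
  rw [lineForm, Crossing.normSq_lin]
  simp

theorem conj_lineForm_mul_im_sq (r t : Vec) (z : ℍ) :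
    (conj (lineForm r z) * lineForm t z).im ^ 2 = ((vecDet r t : ℝ) * z.im) ^ 2 := by
  simp [lineForm, vecDet]
  ring

/-- If `z` and `w` are not strictly on the same side, the geodesic meets a point in a fixed
compact set. -/
theorem exists_re_eq_zero {r t : Vec} (_hD : vecDet r t ≠ 0) {z w : ℍ}
    (h : cross r t z w ≠ 0) : ∃ τ : ℍ, (conj (lineForm r τ) * lineForm t τ).re = 0 ∧
      min z.im w.im ≤ τ.im ∧ τ.im ^ 2 + τ.re ^ 2 ≤ z.im ^ 2 + z.re ^ 2 + (w.im ^ 2 + w.re ^ 2) := by
  have hre : ∀ u : ℍ, (conj (lineForm r u) * lineForm t u).re =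
      (r 1 : ℝ) * t 1 * (u.re ^ 2 + u.im ^ 2)
        - ((r 0 : ℝ) * t 1 + r 1 * t 0) * u.re + r 0 * t 0 := by
    intro u; simp [lineForm]; ring
  set A : ℝ := (r 1 : ℝ) * t 1
  set B : ℝ := (r 0 : ℝ) * t 1 + r 1 * t 0
  set C : ℝ := (r 0 : ℝ) * t 0
  set Qz := A * (z.re ^ 2 + z.im ^ 2) - B * z.re + C with hQz
  set Qw := A * (w.re ^ 2 + w.im ^ 2) - B * w.re + C with hQw
  have hs : SignType.sign Qw ≠ SignType.sign Qz := by
    intro hs
    apply h
    rw [cross, side_def, side_def, hre, hre, sign_mul, sign_mul, ← hQz, ← hQw, hs, sub_self]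
  obtain ⟨s, hs0, hs1, hs2⟩ : ∃ s : ℝ, 0 ≤ s ∧ s ≤ 1 ∧ (1 - s) * Qz + s * Qw = 0 := by
    rcases eq_or_ne Qz 0 with h0 | h0
    · exact ⟨0, le_rfl, zero_le_one, by rw [h0]; ring⟩
    rcases eq_or_ne Qw 0 with h1 | h1
    · exact ⟨1, zero_le_one, le_rfl, by rw [h1]; ring⟩
    rcases lt_or_gt_of_ne h0 with hz | hz <;> rcases lt_or_gt_of_ne h1 with hw | hw
    · exact absurd (by rw [sign_neg hz, sign_neg hw]) hs
    · exact ⟨-Qz / (Qw - Qz), div_nonneg (by linarith) (by linarith),
        (div_le_one (by linarith)).2 (by linarith),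
        by have : Qw - Qz ≠ 0 := by linarith
           field_simp; ring⟩
    · exact ⟨Qz / (Qz - Qw), div_nonneg (by linarith) (by linarith),
        (div_le_one (by linarith)).2 (by linarith),
        by have : Qz - Qw ≠ 0 := by linarith
           field_simp; ring⟩
    · exact absurd (by rw [sign_pos hz, sign_pos hw]) hs
  set X := (1 - s) * z.re + s * w.re with hX
  set T := (1 - s) * (z.re ^ 2 + z.im ^ 2) + s * (w.re ^ 2 + w.im ^ 2) with hT
  set m := min z.im w.im with hm
  have hm0 : 0 < m := lt_min z.im_pos w.im_pos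
  have hvar : m ^ 2 ≤ T - X ^ 2 := by
    have e : T - X ^ 2 = (1 - s) * s * (z.re - w.re) ^ 2
        + ((1 - s) * z.im ^ 2 + s * w.im ^ 2) := by rw [hT, hX]; ring
    have h1 : m ^ 2 ≤ z.im ^ 2 := pow_le_pow_left₀ hm0.le (min_le_left _ _) 2
    have h2 : m ^ 2 ≤ w.im ^ 2 := pow_le_pow_left₀ hm0.le (min_le_right _ _) 2
    rw [e]
    nlinarith [mul_nonneg (mul_nonneg (sub_nonneg.2 hs1) hs0) (sq_nonneg (z.re - w.re))]
  have hpos : 0 < Real.sqrt (T - X ^ 2) := Real.sqrt_pos.2 (by nlinarith)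
  refine ⟨UpperHalfPlane.mk ⟨X, Real.sqrt (T - X ^ 2)⟩ hpos, ?_, ?_, ?_⟩
  · rw [hre]
    simp only [UpperHalfPlane.re, UpperHalfPlane.im]
    rw [Real.sq_sqrt (by nlinarith)]
    rw [hQz, hQw] at hs2
    rw [hT, hX]
    linear_combination hs2
  · simp only [UpperHalfPlane.im]
    exact Real.le_sqrt_of_sq_le hvar
  · simp only [UpperHalfPlane.re, UpperHalfPlane.im]
    rw [Real.sq_sqrt (by nlinarith)]
    have e1 := mul_le_of_le_one_left (add_nonneg (sq_nonneg z.re) (sq_nonneg z.im))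
      (show 1 - s ≤ 1 by linarith)
    have e2 := mul_le_of_le_one_left (add_nonneg (sq_nonneg w.re) (sq_nonneg w.im)) hs1
    simp only [UpperHalfPlane.re, UpperHalfPlane.im] at e1 e2 hT
    linarith

theorem finite_slVec_mem {r t : Vec} (hD : vecDet r t ≠ 0) {S : Set Vec} (hS : S.Finite) :
    {g : SL(2, ℤ) | slVec g r ∈ S ∧ slVec g t ∈ S}.Finite := by
  refine Set.Finite.of_finite_image (f := fun g => (slVec g r, slVec g t)) ?_ ?_
  · refine (hS.prod hS).subset ?_
    rintro _ ⟨g, ⟨h1, h2⟩, rfl⟩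
    exact ⟨h1, h2⟩
  · intro g _ h _ hgh
    simp only [Prod.mk.injEq] at hgh
    obtain ⟨e1, e2⟩ := hgh
    have a0 := congrFun e1 0
    have a1 := congrFun e1 1
    have b0 := congrFun e2 0
    have b1 := congrFun e2 1
    simp only [slVec_zero_apply, slVec_one_apply] at a0 a1 b0 b1
    have key : ∀ x y : ℤ, x * r 0 + y * r 1 = 0 → x * t 0 + y * t 1 = 0 → x = 0 ∧ y = 0 := by
      intro x y hx hy
      constructor
      · refine (mul_eq_zero.1 (show x * vecDet r t = 0 from ?_)).resolve_right hD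
        simp only [vecDet]; linear_combination t 1 * hx - r 1 * hy
      · refine (mul_eq_zero.1 (show y * vecDet r t = 0 from ?_)).resolve_right hD
        simp only [vecDet]; linear_combination r 0 * hy - t 0 * hx
    obtain ⟨k00, k01⟩ := key (g 0 0 - h 0 0) (g 0 1 - h 0 1)
      (by linear_combination a0) (by linear_combination b0)
    obtain ⟨k10, k11⟩ := key (g 1 0 - h 1 0) (g 1 1 - h 1 1)
      (by linear_combination a1) (by linear_combination b1)
    apply Subtype.ext
    ext i j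
    fin_cases i <;> fin_cases j
    · exact sub_eq_zero.1 k00
    · exact sub_eq_zero.1 k01
    · exact sub_eq_zero.1 k10
    · exact sub_eq_zero.1 k11

theorem finite_bounded_lineForm {m R B : ℝ} (hm : 0 < m) :
    {v : Vec | ∃ τ : ℍ, m ≤ τ.im ∧ τ.im ^ 2 + τ.re ^ 2 ≤ R ∧
      Complex.normSq (lineForm v τ) ≤ B}.Finite := by
  obtain ⟨C, hC⟩ := exists_nat_ge (Real.sqrt (max B 0) / m)
  obtain ⟨A, hA⟩ := exists_nat_ge (Real.sqrt (max B 0) + (C : ℝ) * Real.sqrt (max R 0))
  refine ((Set.finite_Icc (-(A : ℤ)) A).prod (Set.finite_Icc (-(C : ℤ)) C)).preimage'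
    (f := fun v : Vec => (v 0, v 1)) (fun p _ => ?_) |>.subset ?_
  · refine Set.Finite.subset (Set.finite_singleton (![p.1, p.2] : Vec)) ?_
    intro v hv
    simp only [Set.mem_preimage, Set.mem_singleton_iff] at hv ⊢
    funext i
    fin_cases i <;> simp [← hv]
  rintro v ⟨τ, h1, h2, h3⟩
  rw [normSq_lineForm] at h3
  have hsq : ∀ x : ℝ, x ^ 2 ≤ B → |x| ≤ Real.sqrt (max B 0) := fun x hx => by
    rw [← Real.sqrt_sq_eq_abs]; exact Real.sqrt_le_sqrt (hx.trans (le_max_left _ _))
  have hc0 := hsq ((v 1 : ℝ) * τ.im) (by nlinarith [sq_nonneg ((v 1 : ℝ) * τ.re - v 0)])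
  have ha0 := hsq ((v 1 : ℝ) * τ.re - v 0) (by nlinarith [sq_nonneg ((v 1 : ℝ) * τ.im)])
  have hre : |τ.re| ≤ Real.sqrt (max R 0) := by
    rw [← Real.sqrt_sq_eq_abs]
    exact Real.sqrt_le_sqrt (le_trans (by nlinarith [sq_nonneg τ.im]) (le_max_left _ _))
  have hc : |(v 1 : ℝ)| ≤ C := by
    refine le_trans ?_ hC
    rw [le_div_iff₀ hm]
    rw [abs_mul, abs_of_pos τ.im_pos] at hc0
    nlinarith [abs_nonneg (v 1 : ℝ)]
  have ha : |(v 0 : ℝ)| ≤ A := by
    have h4 : |(v 1 : ℝ) * τ.re| ≤ C * Real.sqrt (max R 0) := by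
      rw [abs_mul]; exact mul_le_mul hc hre (abs_nonneg _) (Nat.cast_nonneg _)
    have h5 : |(v 0 : ℝ)| ≤ |(v 1 : ℝ) * τ.re - v 0| + |(v 1 : ℝ) * τ.re| := by
      have := abs_add_le (-((v 1 : ℝ) * τ.re - v 0)) ((v 1 : ℝ) * τ.re)
      rwa [show -((v 1 : ℝ) * τ.re - v 0) + (v 1 : ℝ) * τ.re = (v 0 : ℝ) by ring, abs_neg] at this
    linarith
  simp only [Set.mem_preimage, Set.mem_prod, Set.mem_Icc]
  exact ⟨abs_le.1 (by exact_mod_cast ha), abs_le.1 (by exact_mod_cast hc)⟩

/-- Only finitely many translates of a geodesic separate two given points. -/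
theorem finite_support_cross_SL (r t : Vec) (z w : ℍ) :
    (Function.support fun g : SL(2, ℤ) => cross (slVec g r) (slVec g t) z w).Finite := by
  by_cases hD : vecDet r t = 0
  · convert Set.finite_empty
    refine Function.support_eq_empty_iff.2 (funext fun g => ?_)
    simp [cross, side_eq_zero_of_vecDet (show vecDet (slVec g r) (slVec g t) = 0 by
      rw [vecDet_slVec, hD])]
  set m := min z.im w.im with hm
  have hm0 : 0 < m := lt_min z.im_pos w.im_pos
  set R := z.im ^ 2 + z.re ^ 2 + (w.im ^ 2 + w.re ^ 2) with hR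
  set B := (vecDet r t : ℝ) ^ 2 * R / min 1 (m ^ 2) with hB
  refine (finite_slVec_mem hD (finite_bounded_lineForm (R := R) (B := B) hm0)).subset fun g hg => ?_
  simp only [Function.mem_support] at hg
  have hr : slVec g r ≠ 0 := by
    rw [Ne, slVec_eq_zero_iff]; rintro rfl; exact hD (by simp [vecDet])
  have ht : slVec g t ≠ 0 := by
    rw [Ne, slVec_eq_zero_iff]; rintro rfl; exact hD (by simp [vecDet])
  obtain ⟨τ, h0, h1, h2⟩ := exists_re_eq_zero (by rwa [vecDet_slVec]) hg
  have hlow : ∀ v : Vec, v ≠ 0 → min 1 (m ^ 2) ≤ Complex.normSq (lineForm v τ) := by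
    intro v hv
    rw [normSq_lineForm]
    by_cases hv1 : v 1 = 0
    · have hv0 : v 0 ≠ 0 := fun h => hv (funext fun i => by fin_cases i <;> simp [h, hv1])
      have : (1 : ℝ) ≤ (v 0 : ℝ) ^ 2 := by
        exact_mod_cast (show (1 : ℤ) ≤ v 0 ^ 2 by nlinarith [Int.one_le_abs hv0, sq_abs (v 0)])
      rw [hv1]
      push_cast
      nlinarith [min_le_left (1 : ℝ) (m ^ 2)]
    · have h3 : (1 : ℝ) ≤ (v 1 : ℝ) ^ 2 := by
        exact_mod_cast (show (1 : ℤ) ≤ v 1 ^ 2 by nlinarith [Int.one_le_abs hv1, sq_abs (v 1)])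
      have h4 : m ^ 2 ≤ τ.im ^ 2 := pow_le_pow_left₀ hm0.le h1 2
      have h5 : m ^ 2 ≤ ((v 1 : ℝ) * τ.im) ^ 2 := by
        rw [mul_pow]; nlinarith [sq_nonneg τ.im]
      nlinarith [min_le_right (1 : ℝ) (m ^ 2), sq_nonneg ((v 1 : ℝ) * τ.re - v 0)]
  have hprod : Complex.normSq (lineForm (slVec g r) τ) * Complex.normSq (lineForm (slVec g t) τ)
      ≤ (vecDet r t : ℝ) ^ 2 * R := by
    rw [← Complex.normSq_conj (lineForm (slVec g r) τ), ← map_mul, Complex.normSq_apply, h0,
      mul_zero, zero_add, ← sq, conj_lineForm_mul_im_sq, vecDet_slVec, mul_pow]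
    exact mul_le_mul_of_nonneg_left (by nlinarith [sq_nonneg τ.re]) (sq_nonneg _)
  have hc0 : (0 : ℝ) < min 1 (m ^ 2) := lt_min one_pos (by positivity)
  refine ⟨⟨τ, h1, h2, ?_⟩, ⟨τ, h1, h2, ?_⟩⟩
  · rw [hB, le_div_iff₀ hc0]
    nlinarith [hlow _ ht, Complex.normSq_nonneg (lineForm (slVec g r) τ)]
  · rw [hB, le_div_iff₀ hc0]
    nlinarith [hlow _ hr, Complex.normSq_nonneg (lineForm (slVec g t) τ)]

end Fermat.Agent.LevelRaise
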