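import Mathlib.Data.Complex.Basic
import Mathlib.Data.Sign.Basic
import Mathlib.Tactic.LinearCombination
import Mathlib.Tactic.Linarith
import Mathlib.Analysis.Real.Sqrt
import Mathlib.Order.Interval.Finset.Basic
import Mathlib.Data.Int.Interval
import Mathlib.Tactic.NormNum
import Mathlib.Tactic.Positivity

/-!
# The sign sum of a triangle

For `α + β + γ = 0` in `ℂ` with all three nonzero, the three real parts `Re (α β̄)`,
`Re (β γ̄)`, `Re (γ ᾱ)` have sign sum `-1` unless the triangle is not obtuse; in that case its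
sides are bounded in terms of its area and of a lower bound for the sides.
-/

set_option autoImplicit false

namespace Fermat.Agent.LevelRaise.Crossing

open Complex
open scoped ComplexConjugate

theorem re_pair_add {α β γ : ℂ} (h : α + β + γ = 0) :
    (α * conj β).re + (β * conj γ).re = -normSq β := by
  obtain rfl : γ = -α - β := by linear_combination h
  simp [normSq_apply]
  ring

theorem sign_sum_eq {x y z : ℝ} (hxy : x + y < 0) (hyz : y + z < 0) (hzx : z + x < 0)
    (h : ¬ (x ≤ 0 ∧ y ≤ 0 ∧ z ≤ 0)) :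
    (SignType.sign x : ℤ) + SignType.sign y + SignType.sign z = -1 := by
  simp only [not_and_or, not_le] at h
  rcases h with h | h | h
  · rw [sign_pos h, sign_neg (show y < 0 by linarith), sign_neg (show z < 0 by linarith)]; decide
  · rw [sign_pos h, sign_neg (show x < 0 by linarith), sign_neg (show z < 0 by linarith)]; decide
  · rw [sign_pos h, sign_neg (show x < 0 by linarith), sign_neg (show y < 0 by linarith)]; decide

/-- In a triangle that is not obtuse, every side is bounded by area over the shortest side. -/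
theorem bound_of_longest {α β γ : ℂ} {P c : ℝ} (h : α + β + γ = 0)
    (hr : (α * conj β).re ≤ 0) (hi : (α * conj β).im ^ 2 = P ^ 2)
    (hα : normSq α ≤ normSq γ) (hβ : normSq β ≤ normSq γ) (hc : 0 < c) (cα : c ≤ normSq α)
    (cβ : c ≤ normSq β) : normSq γ ≤ 8 * P ^ 2 / c := by
  obtain rfl : γ = -α - β := by linear_combination h
  have e : normSq (-α - β) = normSq α + normSq β + 2 * (α * conj β).re := by
    simp [normSq_apply]; ring
  have hprod : (α * conj β).re ^ 2 + (α * conj β).im ^ 2 = normSq α * normSq β := by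
    simp [normSq_apply]; ring
  rw [e] at hα hβ ⊢
  have h4 : 4 * (α * conj β).re ^ 2 ≤ normSq α * normSq β := by nlinarith
  have h3 : normSq α * normSq β ≤ 2 * P ^ 2 := by nlinarith [sq_nonneg P]
  have ha : c * normSq α ≤ 2 * P ^ 2 := by nlinarith [normSq_nonneg α]
  have hb : c * normSq β ≤ 2 * P ^ 2 := by nlinarith [normSq_nonneg β]
  rw [le_div_iff₀ hc]
  nlinarith [sq_nonneg P]

/-- Away from obtuse triangles the sign sum is `-1`; otherwise the sides are bounded. -/
theorem sign_sum_or_bound {α β γ : ℂ} {c : ℝ} (h : α + β + γ = 0) (hc : 0 < c)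
    (cα : c ≤ normSq α) (cβ : c ≤ normSq β) (cγ : c ≤ normSq γ) :
    (SignType.sign (α * conj β).re : ℤ) + SignType.sign (β * conj γ).re
        + SignType.sign (γ * conj α).re = -1 ∨
      (normSq α ≤ 8 * (α * conj β).im ^ 2 / c ∧ normSq β ≤ 8 * (α * conj β).im ^ 2 / c ∧
        normSq γ ≤ 8 * (α * conj β).im ^ 2 / c) := by
  by_cases hall : (α * conj β).re ≤ 0 ∧ (β * conj γ).re ≤ 0 ∧ (γ * conj α).re ≤ 0
  · right
    obtain ⟨r1, r2, r3⟩ := hall
    have i2 : (β * conj γ).im = (α * conj β).im := by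
      obtain rfl : γ = -α - β := by linear_combination h
      simp; ring
    have i3 : (γ * conj α).im = (α * conj β).im := by
      obtain rfl : γ = -α - β := by linear_combination h
      simp; ring
    have hγ := fun a b => bound_of_longest (P := (α * conj β).im) h r1 rfl a b hc cα cβ
    have hα := fun a b => bound_of_longest (P := (α * conj β).im) (γ := α)
      (show β + γ + α = 0 by linear_combination h) r2 (by rw [i2]) a b hc cβ cγ
    have hβ := fun a b => bound_of_longest (P := (α * conj β).im) (γ := β)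
      (show γ + α + β = 0 by linear_combination h) r3 (by rw [i3]) a b hc cγ cα
    rcases le_total (normSq α) (normSq β) with hab | hab <;>
      rcases le_total (normSq β) (normSq γ) with hbc | hbc <;>
      rcases le_total (normSq γ) (normSq α) with hca | hca <;>
      first
      | (have := hγ (by linarith) (by linarith); exact ⟨by linarith, by linarith, by linarith⟩)
      | (have := hα (by linarith) (by linarith); exact ⟨by linarith, by linarith, by linarith⟩)
      | (have := hβ (by linarith) (by linarith); exact ⟨by linarith, by linarith, by linarith⟩)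
  · left
    have h2 : (β + γ + α = 0) := by linear_combination h
    have h3 : (γ + α + β = 0) := by linear_combination h
    refine sign_sum_eq ?_ ?_ ?_ hall
    · rw [re_pair_add h]; linarith
    · rw [re_pair_add h2]; linarith
    · rw [re_pair_add h3]; linarith

/-- The relation between the linear forms `c z - a` attached to three integral vectors. -/
theorem lin_relation (a c a' c' a'' c'' z : ℂ) :
    (a' * c'' - a'' * c') * (c * z - a) + (a'' * c - a * c'') * (c' * z - a')
      + (a * c' - a' * c) * (c'' * z - a'') = 0 := by ring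

theorem normSq_lin (a c : ℤ) (z : ℂ) :
    normSq ((c : ℂ) * z - a) = ((c : ℝ) * z.re - a) ^ 2 + ((c : ℝ) * z.im) ^ 2 := by
  simp [normSq_apply]; ring

/-- A positive lower bound for `|c z - a|` over nonzero integral vectors. -/
theorem exists_lower_bound {z : ℂ} (hz : 0 < z.im) :
    ∃ c₀ : ℝ, 0 < c₀ ∧ ∀ a c : ℤ, (a, c) ≠ (0, 0) → c₀ ≤ normSq ((c : ℂ) * z - a) := by
  refine ⟨min 1 (z.im ^ 2), lt_min one_pos (by positivity), fun a c h => ?_⟩
  rw [normSq_lin]
  by_cases hc : c = 0
  · subst hc
    have ha : a ≠ 0 := fun ha => h (by rw [ha])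
    have h1 : (1 : ℝ) ≤ (a : ℝ) ^ 2 := by
      exact_mod_cast (show (1 : ℤ) ≤ a ^ 2 by nlinarith [Int.one_le_abs ha, sq_abs a])
    have := min_le_left (1 : ℝ) (z.im ^ 2)
    push_cast; nlinarith
  · have h1 : (1 : ℝ) ≤ (c : ℝ) ^ 2 := by
      exact_mod_cast (show (1 : ℤ) ≤ c ^ 2 by nlinarith [Int.one_le_abs hc, sq_abs c])
    have h2 : z.im ^ 2 ≤ ((c : ℝ) * z.im) ^ 2 := by
      rw [mul_pow]; nlinarith [sq_nonneg z.im]
    have := min_le_right (1 : ℝ) (z.im ^ 2)
    nlinarith [sq_nonneg ((c : ℝ) * z.re - a)]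

theorem finite_bounded {z : ℂ} (hz : 0 < z.im) (B : ℝ) :
    {p : ℤ × ℤ | normSq ((p.2 : ℂ) * z - p.1) ≤ B}.Finite := by
  obtain ⟨C, hC⟩ := exists_nat_ge (Real.sqrt (max B 0) / z.im)
  obtain ⟨A, hA⟩ := exists_nat_ge (Real.sqrt (max B 0) + (C : ℝ) * |z.re|)
  refine Set.Finite.subset
    ((Finset.Icc (-(A : ℤ)) A ×ˢ Finset.Icc (-(C : ℤ)) C).finite_toSet) ?_
  rintro ⟨a, c⟩ h
  simp only [Set.mem_ofPred_eq, normSq_lin] at h
  have hs0 := Real.sqrt_nonneg (max B 0)
  have hB : ∀ x : ℝ, x ^ 2 ≤ B → |x| ≤ Real.sqrt (max B 0) := fun x hx => by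
    rw [← Real.sqrt_sq_eq_abs]; exact Real.sqrt_le_sqrt (hx.trans (le_max_left _ _))
  have h1 := hB ((c : ℝ) * z.im) (by nlinarith [sq_nonneg ((c : ℝ) * z.re - a)])
  have h2 := hB ((c : ℝ) * z.re - a) (by nlinarith [sq_nonneg ((c : ℝ) * z.im)])
  rw [abs_mul, abs_of_pos hz, ← le_div_iff₀ hz] at h1
  have hc : |(c : ℝ)| ≤ C := h1.trans hC
  have ha : |(a : ℝ)| ≤ A := by
    have h3 : |(a : ℝ)| ≤ |(c : ℝ) * z.re - a| + |(c : ℝ) * z.re| := by
      have := abs_add_le (-((c : ℝ) * z.re - a)) ((c : ℝ) * z.re)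
      rwa [show -((c : ℝ) * z.re - a) + (c : ℝ) * z.re = a by ring, abs_neg] at this
    have h4 : |(c : ℝ) * z.re| ≤ C * |z.re| := by
      rw [abs_mul]; exact mul_le_mul_of_nonneg_right hc (abs_nonneg _)
    linarith
  have hc' : |c| ≤ (C : ℤ) := by exact_mod_cast hc
  have ha' : |a| ≤ (A : ℤ) := by exact_mod_cast ha
  simp only [Finset.coe_product, Set.mem_prod, Finset.coe_Icc, Set.mem_Icc]
  exact ⟨abs_le.mp ha', abs_le.mp hc'⟩

end Fermat.Agent.LevelRaise.Crossing
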